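/-
S41 / [PRES] (helper37): presentation of `SL(2, ℤ)` in universal-property form.
Part 2: ping-pong on the upper half plane for `A = ⟨S⟩` (order 4), `B = ⟨U⟩`, `U = T * S` (order 6),
`A ⊓ B = {± 1}`; hence `SL(2, ℤ) = A *_{± 1} B` (helper95's `PingPong.glue`) and the universal property:
for every group `H` and `a b : H` with `a ^ 4 = 1`, `a ^ 2 = b ^ 3` there is a unique homomorphism
`SL(2, ℤ) →* H` with `S ↦ a`, `T * S ↦ b` (resp. `S * T ↦ b`).
-/
import Fermat.Agent.S41.Pres37.Basic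

set_option autoImplicit false

namespace Fermat.Agent.S41.Pres37

open scoped MatrixGroups
open ModularGroup UpperHalfPlane

/-! ### the Möbius action of `S`, `T`, `U` on real parts -/

lemma re_S_smul (z : ℍ) : (S • z).re = -z.re / Complex.normSq z := by
  rw [modular_S_smul]
  show ((-(z : ℂ))⁻¹).re = _
  rw [inv_neg, Complex.neg_re, Complex.inv_re, neg_div]
  rfl

lemma re_T_smul (z : ℍ) : (T • z).re = z.re + 1 := by
  rw [modular_T_smul, vadd_re, add_comm]

lemma U_smul (z : ℍ) : U • z = T • (S • z) := mul_smul T S z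

lemma normSq_pos' (z : ℍ) : 0 < Complex.normSq (z : ℂ) :=
  Complex.normSq_pos.mpr z.ne_zero

lemma S_maps_pos {z : ℍ} (h : 0 < z.re) : (S • z).re < 0 := by
  rw [re_S_smul]
  exact div_neg_of_neg_of_pos (neg_neg_of_pos h) (normSq_pos' z)

lemma S_maps_nonpos {z : ℍ} (h : z.re ≤ 0) : 0 ≤ (S • z).re := by
  rw [re_S_smul]
  exact div_nonneg (neg_nonneg.mpr h) (normSq_pos' z).le

lemma U_maps_nonpos {z : ℍ} (h : z.re ≤ 0) : 1 ≤ (U • z).re := by
  rw [U_smul, re_T_smul]
  linarith [S_maps_nonpos h]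

lemma U_maps_ge_one {z : ℍ} (h : 1 ≤ z.re) : 0 < (U • z).re := by
  rw [U_smul, re_T_smul, re_S_smul]
  have hn := normSq_pos' z
  have hlt : z.re < Complex.normSq (z : ℂ) := by
    rw [Complex.normSq_apply]
    have him : 0 < z.im := z.im_pos
    have h1 : z.re ≤ z.re * z.re := by nlinarith
    have h2 : 0 < z.im * z.im := mul_pos him him
    show z.re < (z : ℂ).re * (z : ℂ).re + (z : ℂ).im * (z : ℂ).im
    change z.re < z.re * z.re + z.im * z.im
    linarith
  rw [neg_div]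
  have : z.re / Complex.normSq (z : ℂ) < 1 := (div_lt_one hn).mpr hlt
  linarith

lemma U_sq_maps_nonpos {z : ℍ} (h : z.re ≤ 0) : 0 < (U ^ 2 • z).re := by
  rw [pow_two, mul_smul]
  exact U_maps_ge_one (U_maps_nonpos h)

/-! ### ping-pong -/

/-- the two ping-pong sets: `X false = {0 < re z}`, `X true = {re z ≤ 0}` -/
def X : Bool → Set ℍ := fun i => cond i {z | z.re ≤ 0} {z | 0 < z.re}

lemma mem_X_false {z : ℍ} : z ∈ X false ↔ 0 < z.re := Iff.rfl
lemma mem_X_true {z : ℍ} : z ∈ X true ↔ z.re ≤ 0 := Iff.rfl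

/-- a base point with `re = 1` -/
noncomputable def x₀ : ℍ := (1 : ℝ) +ᵥ UpperHalfPlane.I

lemma x₀_re : x₀.re = 1 := by
  simp [x₀, vadd_re]

theorem pingPong :
    Amalgam95.PingPong (A := Subgroup.zpowers S) (B := Subgroup.zpowers U) X where
  move := by
    intro i g hg hgC x hx
    cases i
    · -- `g ∈ ⟨S⟩ \ {±1}`, `0 < re x`
      change g ∈ Subgroup.zpowers S at hg
      rw [mem_X_false] at hx
      show (g • x).re ≤ 0
      rcases mem_zpowers_S hg with rfl | rfl | rfl | rfl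
      · exact absurd (mem_inf_iff.mpr (Or.inl rfl)) hgC
      · exact (S_maps_pos hx).le
      · exact absurd (mem_inf_iff.mpr (Or.inr rfl)) hgC
      · rw [SL_neg_smul]; exact (S_maps_pos hx).le
    · change g ∈ Subgroup.zpowers U at hg
      rw [mem_X_true] at hx
      show 0 < (g • x).re
      rcases mem_zpowers_U hg with rfl | rfl | rfl | rfl | rfl | rfl
      · exact absurd (mem_inf_iff.mpr (Or.inl rfl)) hgC
      · exact lt_of_lt_of_le one_pos (U_maps_nonpos hx)
      · exact U_sq_maps_nonpos hx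
      · exact absurd (mem_inf_iff.mpr (Or.inr rfl)) hgC
      · rw [SL_neg_smul]; exact lt_of_lt_of_le one_pos (U_maps_nonpos hx)
      · rw [SL_neg_smul]; exact U_sq_maps_nonpos hx
  base := by
    intro c hc i x hx
    rcases mem_inf_iff.mp hc with rfl | rfl
    · simpa using hx
    · rw [SL_neg_smul]; simpa using hx
  disj := by
    rw [Set.disjoint_left]
    intro z h1 h2
    rw [mem_X_false] at h1
    rw [mem_X_true] at h2
    linarith
  nonempty := by
    intro i
    cases i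
    · exact ⟨x₀, by rw [mem_X_false, x₀_re]; exact one_pos⟩
    · exact ⟨UpperHalfPlane.I, by rw [mem_X_true]; simp⟩
  strict := by
    intro i g hg hgC
    cases i
    · change g ∈ Subgroup.zpowers S at hg
      have hI : (S • UpperHalfPlane.I).re = 0 := by
        rw [re_S_smul]; simp
      refine ⟨UpperHalfPlane.I, by show UpperHalfPlane.I ∈ X true; rw [mem_X_true]; simp, ?_⟩
      show g • UpperHalfPlane.I ∈ X true
      rw [mem_X_true]
      rcases mem_zpowers_S hg with rfl | rfl | rfl | rfl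
      · exact absurd (mem_inf_iff.mpr (Or.inl rfl)) hgC
      · exact hI.le
      · exact absurd (mem_inf_iff.mpr (Or.inr rfl)) hgC
      · rw [SL_neg_smul]; exact hI.le
    · change g ∈ Subgroup.zpowers U at hg
      have h0 : x₀ ∈ X false := by rw [mem_X_false, x₀_re]; exact one_pos
      have h1 : U • x₀ ∈ X false := by
        rw [mem_X_false]; exact U_maps_ge_one (by rw [x₀_re])
      have h3 : U ^ 2 • (U • x₀) = x₀ := by
        rw [← mul_smul, ← pow_succ, U_cube, SL_neg_smul, one_smul]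
      rcases mem_zpowers_U hg with rfl | rfl | rfl | rfl | rfl | rfl
      · exact absurd (mem_inf_iff.mpr (Or.inl rfl)) hgC
      · exact ⟨x₀, h0, h1⟩
      · exact ⟨U • x₀, h1, by show U ^ 2 • (U • x₀) ∈ X false; rw [h3]; exact h0⟩
      · exact absurd (mem_inf_iff.mpr (Or.inr rfl)) hgC
      · exact ⟨x₀, h0, by show -U • x₀ ∈ X false; rw [SL_neg_smul]; exact h1⟩
      · exact ⟨U • x₀, h1, by
          show -U ^ 2 • (U • x₀) ∈ X false; rw [SL_neg_smul, h3]; exact h0⟩

/-! ### generation and the universal property -/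

lemma sup_eq_top : Subgroup.zpowers S ⊔ Subgroup.zpowers U = ⊤ := by
  rw [eq_top_iff, ← SpecialLinearGroup.SL2Z_generators, Subgroup.closure_le]
  rintro g (rfl | rfl)
  · exact Subgroup.mem_sup_left (Subgroup.mem_zpowers _)
  · have h : T = U * S⁻¹ := by simp [U]
    rw [h]
    exact Subgroup.mul_mem _ (Subgroup.mem_sup_right (Subgroup.mem_zpowers U))
      (Subgroup.inv_mem _ (Subgroup.mem_sup_left (Subgroup.mem_zpowers S)))

/-- the generator of a cyclic subgroup, as an element of it -/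
def gen (g : SL(2, ℤ)) : ↥(Subgroup.zpowers g) := ⟨g, Subgroup.mem_zpowers g⟩

lemma forall_mem_zpowers_gen (g : SL(2, ℤ)) (x : ↥(Subgroup.zpowers g)) :
    x ∈ Subgroup.zpowers (gen g) := by
  obtain ⟨k, hk⟩ := Subgroup.mem_zpowers_iff.mp x.2
  refine Subgroup.mem_zpowers_iff.mpr ⟨k, Subtype.ext ?_⟩
  rw [Subgroup.coe_zpow]
  exact hk

lemma orderOf_gen (g : SL(2, ℤ)) : orderOf (gen g) = orderOf g :=
  Subgroup.orderOf_mk _ _

/-- **Presentation of `SL(2, ℤ)`, universal property** (`U = T * S`). -/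
theorem existsUnique_hom_U {H : Type*} [Group H] (a b : H) (ha : a ^ 4 = 1) (hab : a ^ 2 = b ^ 3) :
    ∃! f : SL(2, ℤ) →* H, f S = a ∧ f U = b := by
  have hb : b ^ 6 = 1 := by
    have : b ^ 6 = (b ^ 3) ^ 2 := by rw [← pow_mul]
    rw [this, ← hab, ← pow_mul]
    exact ha
  have hoS : orderOf a ∣ orderOf (gen S) := by
    rw [orderOf_gen, orderOf_S]; exact orderOf_dvd_of_pow_eq_one ha
  have hoU : orderOf b ∣ orderOf (gen U) := by
    rw [orderOf_gen, orderOf_U]; exact orderOf_dvd_of_pow_eq_one hb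
  set φ₁ : ↥(Subgroup.zpowers S) →* H :=
    monoidHomOfForallMemZpowers (forall_mem_zpowers_gen S) hoS with hφ₁
  set φ₂ : ↥(Subgroup.zpowers U) →* H :=
    monoidHomOfForallMemZpowers (forall_mem_zpowers_gen U) hoU with hφ₂
  have h1g : φ₁ (gen S) = a := monoidHomOfForallMemZpowers_apply_gen _ _
  have h2g : φ₂ (gen U) = b := monoidHomOfForallMemZpowers_apply_gen _ _
  have hagree : ∀ (c : SL(2, ℤ)) (hA : c ∈ Subgroup.zpowers S) (hB : c ∈ Subgroup.zpowers U),
      φ₁ ⟨c, hA⟩ = φ₂ ⟨c, hB⟩ := by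
    intro c hA hB
    rcases mem_inf_iff.mp ⟨hA, hB⟩ with rfl | rfl
    · have e1 : (⟨1, hA⟩ : ↥(Subgroup.zpowers S)) = 1 := rfl
      have e2 : (⟨1, hB⟩ : ↥(Subgroup.zpowers U)) = 1 := rfl
      rw [e1, e2, map_one, map_one]
    · have e1 : (⟨-1, hA⟩ : ↥(Subgroup.zpowers S)) = gen S ^ 2 :=
        Subtype.ext (by rw [Subgroup.coe_pow]; exact S_sq.symm)
      have e2 : (⟨-1, hB⟩ : ↥(Subgroup.zpowers U)) = gen U ^ 3 :=
        Subtype.ext (by rw [Subgroup.coe_pow]; exact U_cube.symm)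
      rw [e1, e2, map_pow, map_pow, h1g, h2g, hab]
  obtain ⟨φ, ⟨h1, h2⟩, huniq⟩ := pingPong.glue sup_eq_top φ₁ φ₂ hagree
  refine ⟨φ, ⟨?_, ?_⟩, ?_⟩
  · have := h1 (gen S)
    rw [h1g] at this
    exact this
  · have := h2 (gen U)
    rw [h2g] at this
    exact this
  · rintro ψ ⟨hψ1, hψ2⟩
    apply huniq
    constructor
    · intro x
      have key : ψ.comp (Subgroup.zpowers S).subtype = φ₁ := by
        rw [MonoidHom.eq_iff_eq_on_generator (forall_mem_zpowers_gen S)]
        rw [h1g]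
        exact hψ1
      exact DFunLike.congr_fun key x
    · intro x
      have key : ψ.comp (Subgroup.zpowers U).subtype = φ₂ := by
        rw [MonoidHom.eq_iff_eq_on_generator (forall_mem_zpowers_gen U)]
        rw [h2g]
        exact hψ2
      exact DFunLike.congr_fun key x

/-- **Presentation of `SL(2, ℤ)`, universal property**, generators `S`, `T * S`. -/
theorem existsUnique_hom {H : Type*} [Group H] (a b : H) (ha : a ^ 4 = 1) (hab : a ^ 2 = b ^ 3) :
    ∃! f : SL(2, ℤ) →* H, f S = a ∧ f (T * S) = b :=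
  existsUnique_hom_U a b ha hab

/-- **Presentation of `SL(2, ℤ)`, universal property**, generators `S`, `S * T`. -/
theorem existsUnique_hom' {H : Type*} [Group H] (a b : H) (ha : a ^ 4 = 1) (hab : a ^ 2 = b ^ 3) :
    ∃! f : SL(2, ℤ) →* H, f S = a ∧ f (S * T) = b := by
  have hab' : a ^ 2 = (a⁻¹ * b * a) ^ 3 := by
    have : (a⁻¹ * b * a) ^ 3 = a⁻¹ * b ^ 3 * a := by
      simp [pow_succ, mul_assoc]
    rw [this, ← hab]
    simp [pow_two]
  obtain ⟨f, ⟨hf1, hf2⟩, huniq⟩ := existsUnique_hom a (a⁻¹ * b * a) ha hab'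
  have hST : ∀ g : SL(2, ℤ) →* H, g S = a → (g (S * T) = b ↔ g (T * S) = a⁻¹ * b * a) := by
    intro g hg
    have e : g (T * S) = a⁻¹ * g (S * T) * a := by
      have e0 : T * S = S⁻¹ * (S * T) * S := by group
      rw [e0, map_mul, map_mul g S⁻¹, map_inv, hg]
    rw [e]
    constructor
    · intro h; rw [h]
    · intro h
      have := congrArg (fun x => a * x * a⁻¹) h
      simpa [mul_assoc] using this
  refine ⟨f, ⟨hf1, (hST f hf1).mpr hf2⟩, ?_⟩
  rintro ψ ⟨hψ1, hψ2⟩
  exact huniq ψ ⟨hψ1, (hST ψ hψ1).mp hψ2⟩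

/-- **`PSL(2, ℤ) = C₂ * C₃` form**: for `σ ^ 2 = 1`, `τ ^ 3 = 1` there is a unique homomorphism
`SL(2, ℤ) →* H` with `S ↦ σ`, `S * T ↦ τ`; it kills `-1`. -/
theorem existsUnique_hom_sq_cube {H : Type*} [Group H] (σ τ : H) (hσ : σ ^ 2 = 1) (hτ : τ ^ 3 = 1) :
    ∃! f : SL(2, ℤ) →* H, f S = σ ∧ f (S * T) = τ :=
  existsUnique_hom' σ τ (by
    have : σ ^ 4 = (σ ^ 2) ^ 2 := by rw [← pow_mul]
    rw [this, hσ, one_pow]) (by rw [hσ, hτ])

/-- same with `T * S`. -/
theorem existsUnique_hom_sq_cube_TS {H : Type*} [Group H] (σ τ : H) (hσ : σ ^ 2 = 1)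
    (hτ : τ ^ 3 = 1) :
    ∃! f : SL(2, ℤ) →* H, f S = σ ∧ f (T * S) = τ :=
  existsUnique_hom σ τ (by
    have : σ ^ 4 = (σ ^ 2) ^ 2 := by rw [← pow_mul]
    rw [this, hσ, one_pow]) (by rw [hσ, hτ])

/-- a homomorphism with `f S ^ 2 = 1` kills `-1`. -/
lemma map_neg_one_of_sq {H : Type*} [Group H] (f : SL(2, ℤ) →* H) (h : f S ^ 2 = 1) :
    f (-1) = 1 := by
  rw [← S_sq, map_pow, h]

/-- two homomorphisms out of `SL(2, ℤ)` agreeing at `S` and `T` are equal. -/
lemma hom_ext_ST {H : Type*} [Group H] {f g : SL(2, ℤ) →* H} (hS : f S = g S) (hT : f T = g T) :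
    f = g := by
  have hle : (⊤ : Subgroup SL(2, ℤ)) ≤ f.eqLocus g := by
    rw [← SpecialLinearGroup.SL2Z_generators, Subgroup.closure_le]
    rintro x (rfl | rfl)
    · exact hS
    · exact hT
  ext x
  exact hle (Subgroup.mem_top x)

end Fermat.Agent.S41.Pres37
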