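/-
S41 / [PRES] (helper37): consequences of the presentation of `SL(2, ℤ)`.
* `comp_eq_id` : a lift of `(S, S * T)` to an extension `π : E →* SL(2, ℤ)` is a section.
* `existsUnique_crossedHom` : crossed homomorphisms `SL(2, ℤ) → M` (any module `M`, action given by a
  monoid hom `ρ : SL(2, ℤ) →* AddMonoid.End M`) with prescribed values `α` at `S`, `β` at `S * T`,
  under the necessary relations `(1 + S) α = (1 + u + u²) β =: γ`, `γ + (-1) γ = 0` (`u = S * T`).
  Special case `γ = 0`: `existsUnique_crossedHom_zero`  (= (H-COC) of the PD plans).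
-/
import Fermat.Agent.S41.Pres37.Main

set_option autoImplicit false

namespace Fermat.Agent.S41.Pres37

open scoped MatrixGroups
open ModularGroup

lemma ST_cube : (S * T) ^ 3 = -1 := by
  have h : S * T = S * U * S⁻¹ := by simp [U, mul_assoc]
  have h3 : (S * U * S⁻¹) ^ 3 = S * U ^ 3 * S⁻¹ := by
    simp [pow_succ, mul_assoc]
  rw [h, h3, U_cube]
  simp

/-- a lift of the generators to an extension of `SL(2, ℤ)` is a section. -/
lemma comp_eq_id {E : Type*} [Group E] (π : E →* SL(2, ℤ)) (f : SL(2, ℤ) →* E)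
    (hS : π (f S) = S) (hST : π (f (S * T)) = S * T) : π.comp f = MonoidHom.id _ := by
  apply hom_ext_ST
  · exact hS
  · have hT : T = S⁻¹ * (S * T) := by group
    show π (f T) = T
    conv_lhs => rw [hT]
    rw [map_mul, map_mul, hST, map_inv, map_inv, hS]
    group

section CrossedHom

/-- the split extension `M ⋊ SL(2, ℤ)` -/
@[ext] structure Ext {M : Type*} [AddCommGroup M] (ρ : SL(2, ℤ) →* AddMonoid.End M) where
  /-- module component -/
  m : M
  /-- group component -/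
  g : SL(2, ℤ)

variable {M : Type*} [AddCommGroup M] (ρ : SL(2, ℤ) →* AddMonoid.End M)

namespace Ext

variable {ρ}

instance : Mul (Ext ρ) := ⟨fun x y => ⟨x.m + ρ x.g y.m, x.g * y.g⟩⟩
instance : One (Ext ρ) := ⟨⟨0, 1⟩⟩
instance : Inv (Ext ρ) := ⟨fun x => ⟨-(ρ x.g⁻¹ x.m), x.g⁻¹⟩⟩

@[simp] lemma mul_m (x y : Ext ρ) : (x * y).m = x.m + ρ x.g y.m := rfl
@[simp] lemma mul_g (x y : Ext ρ) : (x * y).g = x.g * y.g := rfl
@[simp] lemma one_m : (1 : Ext ρ).m = 0 := rfl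
@[simp] lemma one_g : (1 : Ext ρ).g = 1 := rfl
@[simp] lemma inv_m (x : Ext ρ) : (x⁻¹).m = -(ρ x.g⁻¹ x.m) := rfl
@[simp] lemma inv_g (x : Ext ρ) : (x⁻¹).g = x.g⁻¹ := rfl

instance : Group (Ext ρ) :=
  Group.ofLeftAxioms
    (fun x y z => by
      ext
      · simp [map_mul, add_assoc]
      · simp [mul_assoc])
    (fun x => by
      ext
      · simp
      · simp)
    (fun x => by
      ext
      · simp
      · simp)

/-- projection to `SL(2, ℤ)` -/
def proj : Ext ρ →* SL(2, ℤ) where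
  toFun x := x.g
  map_one' := rfl
  map_mul' _ _ := rfl

lemma sq_m (x : Ext ρ) : (x ^ 2).m = x.m + ρ x.g x.m := by
  rw [pow_two]; rfl

lemma sq_g (x : Ext ρ) : (x ^ 2).g = x.g ^ 2 := by
  rw [pow_two, pow_two]; rfl

lemma cube_m (x : Ext ρ) : (x ^ 3).m = x.m + ρ x.g x.m + ρ x.g (ρ x.g x.m) := by
  rw [pow_succ, pow_two]
  simp [map_mul, add_assoc]

lemma cube_g (x : Ext ρ) : (x ^ 3).g = x.g ^ 3 := by
  rw [pow_succ, pow_two, pow_succ, pow_two]; rfl

end Ext

/-- a function `z` is a crossed homomorphism for `ρ` -/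
def IsCrossedHom (z : SL(2, ℤ) → M) : Prop := ∀ g h, z (g * h) = z g + ρ g (z h)

/-- the homomorphism `g ↦ (z g, g)` attached to a crossed homomorphism -/
def homOfCrossed {z : SL(2, ℤ) → M} (hz : IsCrossedHom ρ z) : SL(2, ℤ) →* Ext ρ :=
  MonoidHom.mk' (fun g => ⟨z g, g⟩) (fun g h => by
    refine Ext.ext ?_ ?_
    · exact hz g h
    · rfl)

/-- **Crossed homomorphisms of `SL(2, ℤ)` with prescribed values at `S` and `S * T`.** -/
theorem existsUnique_crossedHom (α β : M)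
    (h : α + ρ S α = β + ρ (S * T) β + ρ (S * T) (ρ (S * T) β))
    (h4 : (α + ρ S α) + ρ (-1) (α + ρ S α) = 0) :
    ∃! z : SL(2, ℤ) → M, IsCrossedHom ρ z ∧ z S = α ∧ z (S * T) = β := by
  set a : Ext ρ := ⟨α, S⟩ with ha
  set b : Ext ρ := ⟨β, S * T⟩ with hb
  have ha2 : a ^ 2 = ⟨α + ρ S α, -1⟩ := by
    refine Ext.ext ?_ ?_
    · rw [Ext.sq_m]
    · rw [Ext.sq_g]; exact S_sq
  have hb3 : b ^ 3 = ⟨β + ρ (S * T) β + ρ (S * T) (ρ (S * T) β), -1⟩ := by
    refine Ext.ext ?_ ?_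
    · rw [Ext.cube_m]
    · rw [Ext.cube_g]; exact ST_cube
  have hab : a ^ 2 = b ^ 3 := by rw [ha2, hb3, h]
  have ha4 : a ^ 4 = 1 := by
    have e : a ^ 4 = (a ^ 2) ^ 2 := by rw [← pow_mul]
    rw [e, ha2]
    refine Ext.ext ?_ ?_
    · rw [Ext.sq_m]; exact h4
    · rw [Ext.sq_g]; simp
  obtain ⟨f, ⟨hf1, hf2⟩, huniq⟩ := existsUnique_hom' a b ha4 hab
  have hsec : (Ext.proj (ρ := ρ)).comp f = MonoidHom.id _ :=
    comp_eq_id _ f (by rw [hf1]; rfl) (by rw [hf2]; rfl)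
  have hg : ∀ g, (f g).g = g := fun g => DFunLike.congr_fun hsec g
  refine ⟨fun g => (f g).m, ⟨?_, ?_, ?_⟩, ?_⟩
  · intro g k
    show (f (g * k)).m = (f g).m + ρ g (f k).m
    rw [map_mul, Ext.mul_m, hg]
  · show (f S).m = α
    rw [hf1]
  · show (f (S * T)).m = β
    rw [hf2]
  · rintro z ⟨hz, hzS, hzT⟩
    have := huniq (homOfCrossed ρ hz) ⟨by
      show (⟨z S, S⟩ : Ext ρ) = a
      rw [hzS], by
      show (⟨z (S * T), S * T⟩ : Ext ρ) = b
      rw [hzT]⟩
    funext g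
    rw [← this]
    rfl

/-- **(H-COC) form**: `(1 + S) α = 0` and `(1 + u + u²) β = 0`, `u = S * T`. -/
theorem existsUnique_crossedHom_zero (α β : M) (hα : α + ρ S α = 0)
    (hβ : β + ρ (S * T) β + ρ (S * T) (ρ (S * T) β) = 0) :
    ∃! z : SL(2, ℤ) → M, IsCrossedHom ρ z ∧ z S = α ∧ z (S * T) = β :=
  existsUnique_crossedHom ρ α β (by rw [hα, hβ]) (by rw [hα]; simp)

end CrossedHom

end Fermat.Agent.S41.Pres37
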