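/-
S41 / [PRES] → [PD-COMM] glue (helper37): EXISTENCE of the primitive `K` of the cup product of two
crossed homomorphisms of `G = SL(2, ℤ)` with values in functions on a `G`-set `Ω` on which `-1` acts
trivially, in helper22's `CuspSum22` vocabulary (`act`, `IsCoc`, `IsPrim`), for every coefficient
ring `R` in which `2` and `3` are invertible (`ℚ`, `ℤ[1/6]`, `𝔽_p` for `p ≥ 5`, ...).

This discharges the hypotheses `hK`, `hK₁`, `hK₂` of `CuspSum22.cuspSum_eq` / `form_comp_iso` for
`G = SL(2, ℤ)`: `exists_isPrim`.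

Proof: the Heisenberg-type extension `E = (Ω → R) ×_{-z ∪ z'} G`; the lifts
`a = (-(1/2) z S * z' S, S)`, `b = ((1/3)(z u * u.z' u + (z u + u.z u) * u².z' u), u)`, `u = S * T`,
satisfy `a² = b³ = (0, -1)`, `a⁴ = 1`; the presentation (`Pres37.existsUnique_hom'`) gives a section.
-/
import Fermat.Agent.S41.Pres37.CrossedHom
import Fermat.Agent.S41.CuspSum22.Core

set_option autoImplicit false

namespace Fermat.Agent.S41.Pres37

open scoped MatrixGroups
open ModularGroup
open Fermat.Agent.S41.CuspSum22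

variable {Ω : Type*} [MulAction SL(2, ℤ) Ω] {R : Type*} [CommRing R]

/-- the underlying type of the extension of `SL(2, ℤ)` by `Ω → R` attached to `-(z ∪ z')` -/
structure HExt (Ω : Type*) (R : Type*) where
  /-- function component -/
  k : Ω → R
  /-- group component -/
  g : SL(2, ℤ)

omit [MulAction SL(2, ℤ) Ω] [CommRing R] in
theorem HExt.ext' {x y : HExt Ω R} (h1 : x.k = y.k) (h2 : x.g = y.g) : x = y := by
  cases x; cases y; simp_all

/-- the group structure on `HExt` attached to two crossed homs -/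
@[reducible] def hextGroup {z z' : SL(2, ℤ) → Ω → R} (hz : IsCoc z) (hz' : IsCoc z') :
    Group (HExt Ω R) :=
  letI : Mul (HExt Ω R) :=
    ⟨fun x y => ⟨x.k + act x.g y.k - z x.g * act x.g (z' y.g), x.g * y.g⟩⟩
  letI : One (HExt Ω R) := ⟨⟨0, 1⟩⟩
  letI : Inv (HExt Ω R) :=
    ⟨fun x => ⟨-act x.g⁻¹ x.k + z x.g⁻¹ * act x.g⁻¹ (z' x.g), x.g⁻¹⟩⟩
  Group.ofLeftAxioms
    (by
      intro x y w
      apply HExt.ext'
      · show x.k + act x.g y.k - z x.g * act x.g (z' y.g) + act (x.g * y.g) w.k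
            - z (x.g * y.g) * act (x.g * y.g) (z' w.g)
          = x.k + act x.g (y.k + act y.g w.k - z y.g * act y.g (z' w.g))
            - z x.g * act x.g (z' (y.g * w.g))
        rw [hz x.g y.g, hz' y.g w.g, act_mul, act_mul, act_sub, act_add, act_add, act_mulf]
        ring
      · exact mul_assoc _ _ _)
    (by
      intro x
      apply HExt.ext'
      · show (0 : Ω → R) + act (1 : SL(2, ℤ)) x.k - z 1 * act (1 : SL(2, ℤ)) (z' x.g) = x.k
        rw [hz.map_one, act_one]
        ring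
      · exact one_mul _)
    (by
      intro x
      apply HExt.ext'
      · show -act x.g⁻¹ x.k + z x.g⁻¹ * act x.g⁻¹ (z' x.g) + act x.g⁻¹ x.k
            - z x.g⁻¹ * act x.g⁻¹ (z' x.g) = 0
        ring
      · exact inv_mul_cancel _)

omit [CommRing R] in
theorem act_smul' [Mul R] (g : SL(2, ℤ)) (c : R) (m : Ω → R) :
    act g (fun ω => c * m ω) = fun ω => c * act g m ω := rfl

/-- **Existence of the primitive of the cup product for `SL(2, ℤ)`** (`-1` acting trivially on `Ω`,
`2` and `3` invertible in `R`). -/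
theorem exists_isPrim [Invertible (2 : R)] [Invertible (3 : R)]
    (hneg : ∀ ω : Ω, (-1 : SL(2, ℤ)) • ω = ω)
    {z z' : SL(2, ℤ) → Ω → R} (hz : IsCoc z) (hz' : IsCoc z') : ∃ K, IsPrim z z' K := by
  let _ : Group (HExt Ω R) := hextGroup hz hz'
  have mul_k : ∀ x y : HExt Ω R,
      (x * y).k = x.k + act x.g y.k - z x.g * act x.g (z' y.g) := fun _ _ => rfl
  have mul_g : ∀ x y : HExt Ω R, (x * y).g = x.g * y.g := fun _ _ => rfl
  have one_k : (1 : HExt Ω R).k = 0 := rfl
  have one_g : (1 : HExt Ω R).g = 1 := rfl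
  -- `-1` acts trivially on functions
  have hact_neg : ∀ m : Ω → R, act (-1 : SL(2, ℤ)) m = m := by
    intro m
    funext ω
    have h1 : ((-1 : SL(2, ℤ)))⁻¹ = -1 := by
      rw [inv_eq_iff_mul_eq_one, neg_mul_neg, one_mul]
    rw [act_apply, h1, hneg]
  -- crossed homs vanish at `-1`
  have hcneg : ∀ {c : SL(2, ℤ) → Ω → R}, IsCoc c → c (-1) = 0 := by
    intro c hc
    have h := hc (-1) (-1)
    rw [neg_mul_neg, one_mul, hc.map_one, hact_neg] at h
    funext ω
    have h2 := congrFun h ω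
    simp only [Pi.zero_apply, Pi.add_apply] at h2
    have h3 : (2 : R) * c (-1) ω = 0 := by rw [two_mul]; exact h2.symm
    exact (isUnit_of_invertible (2 : R)).mul_right_eq_zero.mp h3
  obtain ⟨u, hu⟩ : ∃ u : SL(2, ℤ), u = S * T := ⟨_, rfl⟩
  have hSS : S * S = -1 := by rw [← pow_two]; exact S_sq
  have huuu : u * u * u = -1 := by
    have := ST_cube
    rw [pow_succ, pow_two, ← hu] at this
    exact this
  -- relations at `S`
  have hS_rel : ∀ {c : SL(2, ℤ) → Ω → R}, IsCoc c → act S (c S) = -c S := by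
    intro c hc
    have h := hc S S
    rw [hSS, hcneg hc] at h
    exact (neg_eq_of_add_eq_zero_right h.symm).symm
  -- relations at `u`
  have hu_rel : ∀ {c : SL(2, ℤ) → Ω → R}, IsCoc c →
      c u + act u (c u) + act u (act u (c u)) = 0 := by
    intro c hc
    have h1 := hc (u * u) u
    have h2 := hc u u
    rw [huuu, hcneg hc, h2, act_mul] at h1
    exact h1.symm
  have hu3 : ∀ m : Ω → R, act u (act u (act u m)) = m := by
    intro m
    rw [← act_mul, ← act_mul, huuu, hact_neg]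
  have huu : ∀ {c : SL(2, ℤ) → Ω → R}, IsCoc c → c (u * u) = c u + act u (c u) := fun hc => hc u u
  -- the lift of `S`
  set p : Ω → R := z S * z' S with hp
  set kS : Ω → R := fun ω => -(⅟(2 : R)) * p ω with hkS
  have hSp : act S p = p := by
    rw [hp, act_mulf, hS_rel hz, hS_rel hz']
    ring
  have hSk : act S kS = kS := by
    rw [hkS, act_smul', hSp]
  have h2inv : (⅟(2 : R)) + ⅟(2 : R) = 1 := by
    rw [← two_mul, mul_invOf_self]
  have h3inv : (⅟(3 : R)) + ⅟(3 : R) + ⅟(3 : R) = 1 := by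
    have : (⅟(3 : R)) + ⅟(3 : R) + ⅟(3 : R) = 3 * ⅟(3 : R) := by ring
    rw [this, mul_invOf_self]
  set a : HExt Ω R := ⟨kS, S⟩ with ha
  have haa : a * a = ⟨0, -1⟩ := by
    apply HExt.ext'
    · rw [mul_k]
      show kS + act S kS - z S * act S (z' S) = 0
      rw [hSk, hS_rel hz']
      funext ω
      simp only [hkS, hp, Pi.add_apply, Pi.sub_apply, Pi.mul_apply, Pi.neg_apply, Pi.zero_apply]
      linear_combination (-(z S ω * z' S ω)) * h2inv
    · rw [mul_g]; exact hSS
  have hnegsq : (⟨0, -1⟩ : HExt Ω R) * ⟨0, -1⟩ = 1 := by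
    apply HExt.ext'
    · rw [mul_k, one_k]
      show (0 : Ω → R) + act (-1 : SL(2, ℤ)) 0 - z (-1) * act (-1 : SL(2, ℤ)) (z' (-1)) = 0
      rw [hcneg hz, act_zero]
      ring
    · rw [mul_g, one_g]
      show (-1 : SL(2, ℤ)) * -1 = 1
      rw [neg_mul_neg, one_mul]
  have ha4 : a ^ 4 = 1 := by
    have e : a ^ 4 = (a * a) * (a * a) := by
      rw [show (4 : ℕ) = 2 + 2 from rfl, pow_add, pow_two]
    rw [e, haa, hnegsq]
  -- the lift of `u`
  set a₀ : Ω → R := z u with ha₀
  set a₁ : Ω → R := act u a₀ with ha₁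
  set a₂ : Ω → R := act u a₁ with ha₂
  set b₀ : Ω → R := z' u with hb₀
  set b₁ : Ω → R := act u b₀ with hb₁
  set b₂ : Ω → R := act u b₁ with hb₂
  have hasum : a₀ + a₁ + a₂ = 0 := hu_rel hz
  have hbsum : b₀ + b₁ + b₂ = 0 := hu_rel hz'
  have ha₂u : act u a₂ = a₀ := hu3 a₀
  have hb₂u : act u b₂ = b₀ := hu3 b₀
  set q : Ω → R := a₀ * b₁ + (a₀ + a₁) * b₂ with hq
  have huq : act u q = q := by
    rw [hq, act_add, act_mulf, act_mulf, act_add]
    show a₁ * b₂ + (a₁ + a₂) * act u b₂ = a₀ * b₁ + (a₀ + a₁) * b₂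
    rw [hb₂u]
    linear_combination b₀ * hasum - a₀ * hbsum
  set ku : Ω → R := fun ω => ⅟(3 : R) * q ω with hku
  have huk : act u ku = ku := by
    rw [hku, act_smul', huq]
  set b : HExt Ω R := ⟨ku, u⟩ with hb
  have hbbb : b * b * b = ⟨0, -1⟩ := by
    apply HExt.ext'
    · rw [mul_k, mul_k, mul_g]
      show ku + act u ku - z u * act u (z' u) + act (u * u) ku
          - z (u * u) * act (u * u) (z' u) = 0
      rw [huu hz, act_mul, act_mul, huk, huk]
      show ku + ku - a₀ * b₁ + ku - (a₀ + a₁) * b₂ = 0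
      funext ω
      simp only [hku, hq, Pi.add_apply, Pi.sub_apply, Pi.mul_apply, Pi.zero_apply]
      linear_combination (a₀ ω * b₁ ω + (a₀ ω + a₁ ω) * b₂ ω) * h3inv
    · rw [mul_g, mul_g]; exact huuu
  have hab : a ^ 2 = b ^ 3 := by
    rw [pow_two, haa, pow_succ, pow_two, hbbb]
  obtain ⟨f, ⟨hf1, hf2⟩, -⟩ := existsUnique_hom' a b ha4 hab
  rw [← hu] at hf2
  let π : HExt Ω R →* SL(2, ℤ) :=
    { toFun := fun x => x.g
      map_one' := rfl
      map_mul' := fun _ _ => rfl }
  have hsec : π.comp f = MonoidHom.id _ :=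
    comp_eq_id π f (by rw [hf1]; rfl) (by rw [← hu, hf2]; rfl)
  have hg : ∀ g, (f g).g = g := fun g => DFunLike.congr_fun hsec g
  refine ⟨fun g => (f g).k, fun g h => ?_⟩
  show (f (g * h)).k = (f g).k + act g (f h).k - z g * act g (z' h)
  rw [map_mul, mul_k, hg g, hg h]

/-- `exists_isPrim` over `ℚ`. -/
theorem exists_isPrim_rat (hneg : ∀ ω : Ω, (-1 : SL(2, ℤ)) • ω = ω)
    {z z' : SL(2, ℤ) → Ω → ℚ} (hz : IsCoc z) (hz' : IsCoc z') : ∃ K, IsPrim z z' K :=
  letI : Invertible (2 : ℚ) := invertibleOfNonzero (by norm_num)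
  letI : Invertible (3 : ℚ) := invertibleOfNonzero (by norm_num)
  exists_isPrim hneg hz hz'

/-! ### crossed homs with prescribed values at `S`, `S * T`, in the `CuspSum22` vocabulary -/

/-- the action `act` as a monoid hom into additive endomorphisms -/
def actHom (Ω : Type*) [MulAction SL(2, ℤ) Ω] (R : Type*) [CommRing R] :
    SL(2, ℤ) →* AddMonoid.End (Ω → R) where
  toFun g :=
    { toFun := fun m => act g m
      map_zero' := act_zero g
      map_add' := act_add g }
  map_one' := by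
    ext m : 1
    exact act_one m
  map_mul' g h := by
    ext m : 1
    exact act_mul g h m

@[simp] lemma actHom_apply (g : SL(2, ℤ)) (m : Ω → R) : actHom Ω R g m = act g m := rfl

/-- **(H-COC)** in the `CuspSum22` vocabulary: crossed homs `SL(2, ℤ) → (Ω → R)` with prescribed
values `α` at `S` and `β` at `S * T`, `(1 + S) α = 0`, `(1 + u + u²) β = 0`. -/
theorem existsUnique_isCoc (α β : Ω → R) (hα : α + act S α = 0)
    (hβ : β + act (S * T) β + act (S * T) (act (S * T) β) = 0) :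
    ∃! c : SL(2, ℤ) → Ω → R, IsCoc c ∧ c S = α ∧ c (S * T) = β :=
  existsUnique_crossedHom_zero (actHom Ω R) α β hα hβ

end Fermat.Agent.S41.Pres37
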