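/-
S41 / [PRES] (helper37): presentation of `SL(2, ℤ)` in universal-property form.
Part 1: the elements `S`, `U = T * S`, their powers, the two cyclic subgroups.
-/
import Mathlib
import Fermat.Agent.S41.Amalgam95.PingPong

set_option autoImplicit false

namespace Fermat.Agent.S41.Pres37

open scoped MatrixGroups
open ModularGroup UpperHalfPlane

/-- the order-6 element `U = T * S = [[1,-1],[1,0]]`, `z ↦ 1 - 1/z` -/
def U : SL(2, ℤ) := T * S

lemma coe_U : (U : Matrix (Fin 2) (Fin 2) ℤ) = !![1, -1; 1, 0] := by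
  simp only [U, Matrix.SpecialLinearGroup.coe_mul, coe_S, coe_T, Matrix.mul_fin_two]
  norm_num

lemma S_sq : S ^ 2 = -1 := by
  apply Subtype.ext
  simp only [pow_two, Matrix.SpecialLinearGroup.coe_mul, Matrix.SpecialLinearGroup.coe_neg,
    Matrix.SpecialLinearGroup.coe_one, coe_S, Matrix.mul_fin_two, Matrix.one_fin_two]
  norm_num

lemma U_sq_coe : ((U ^ 2 : SL(2, ℤ)) : Matrix (Fin 2) (Fin 2) ℤ) = !![0, -1; 1, -1] := by
  simp only [pow_two, Matrix.SpecialLinearGroup.coe_mul, coe_U, Matrix.mul_fin_two]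
  norm_num

lemma U_cube : U ^ 3 = -1 := by
  apply Subtype.ext
  rw [pow_succ, Matrix.SpecialLinearGroup.coe_mul, U_sq_coe, coe_U]
  simp only [Matrix.SpecialLinearGroup.coe_neg,
    Matrix.SpecialLinearGroup.coe_one, Matrix.mul_fin_two, Matrix.one_fin_two]
  norm_num

lemma S_pow_four : S ^ 4 = 1 := by
  have h : S ^ 4 = (S ^ 2) ^ 2 := by rw [← pow_mul]
  rw [h, S_sq, neg_one_sq]

lemma U_pow_six : U ^ 6 = 1 := by
  have h : U ^ 6 = (U ^ 3) ^ 2 := by rw [← pow_mul]
  rw [h, U_cube, neg_one_sq]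

lemma mem_zpowers_S {g : SL(2, ℤ)} (hg : g ∈ Subgroup.zpowers S) :
    g = 1 ∨ g = S ∨ g = -1 ∨ g = -S := by
  obtain ⟨k, rfl⟩ := Subgroup.mem_zpowers_iff.mp hg
  have h4 : S ^ (4 : ℤ) = 1 := by exact_mod_cast S_pow_four
  rw [zpow_eq_zpow_emod k h4]
  have h0 : 0 ≤ k % 4 := Int.emod_nonneg _ (by norm_num)
  have h1 : k % 4 < 4 := Int.emod_lt_of_pos _ (by norm_num)
  generalize k % 4 = r at h0 h1
  interval_cases r
  · left; simp
  · right; left; simp
  · right; right; left
    exact_mod_cast S_sq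
  · right; right; right
    have : S ^ (3 : ℤ) = S ^ 2 * S := by
      have : S ^ (3 : ℤ) = S ^ 3 := by norm_cast
      rw [this, pow_succ]
    rw [this, S_sq, neg_one_mul]

lemma mem_zpowers_U {g : SL(2, ℤ)} (hg : g ∈ Subgroup.zpowers U) :
    g = 1 ∨ g = U ∨ g = U ^ 2 ∨ g = -1 ∨ g = -U ∨ g = -U ^ 2 := by
  obtain ⟨k, rfl⟩ := Subgroup.mem_zpowers_iff.mp hg
  have h6 : U ^ (6 : ℤ) = 1 := by exact_mod_cast U_pow_six
  rw [zpow_eq_zpow_emod k h6]
  have h0 : 0 ≤ k % 6 := Int.emod_nonneg _ (by norm_num)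
  have h1 : k % 6 < 6 := Int.emod_lt_of_pos _ (by norm_num)
  generalize k % 6 = r at h0 h1
  interval_cases r
  · left; simp
  · right; left; simp
  · right; right; left
    norm_cast
  · right; right; right; left
    exact_mod_cast U_cube
  · right; right; right; right; left
    have : U ^ (4 : ℤ) = U ^ 3 * U := by
      have : U ^ (4 : ℤ) = U ^ 4 := by norm_cast
      rw [this, pow_succ]
    rw [this, U_cube, neg_one_mul]
  · right; right; right; right; right
    have : U ^ (5 : ℤ) = U ^ 3 * U ^ 2 := by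
      have : U ^ (5 : ℤ) = U ^ 5 := by norm_cast
      rw [this, ← pow_add]
    rw [this, U_cube, neg_one_mul]

/-- the four entries of a matrix in `SL(2, ℤ)` -/
def ent (g : SL(2, ℤ)) : ℤ × ℤ × ℤ × ℤ := (g.1 0 0, g.1 0 1, g.1 1 0, g.1 1 1)

lemma ent_one : ent 1 = (1, 0, 0, 1) := by simp [ent]
lemma ent_neg (g : SL(2, ℤ)) : ent (-g) = (-(ent g).1, -(ent g).2.1, -(ent g).2.2.1, -(ent g).2.2.2) := by
  simp [ent]
lemma ent_S : ent S = (0, -1, 1, 0) := by simp [ent, coe_S]
lemma ent_U : ent U = (1, -1, 1, 0) := by simp [ent, coe_U]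
lemma ent_U_sq : ent (U ^ 2) = (0, -1, 1, -1) := by
  unfold ent
  rw [U_sq_coe]
  simp

lemma neg_one_ne_one : (-1 : SL(2, ℤ)) ≠ 1 := by
  intro h
  have := congrArg ent h
  rw [ent_neg, ent_one] at this
  simp at this

lemma neg_one_mem_zpowers_S : (-1 : SL(2, ℤ)) ∈ Subgroup.zpowers S :=
  S_sq ▸ Subgroup.pow_mem _ (Subgroup.mem_zpowers S) 2

lemma neg_one_mem_zpowers_U : (-1 : SL(2, ℤ)) ∈ Subgroup.zpowers U :=
  U_cube ▸ Subgroup.pow_mem _ (Subgroup.mem_zpowers U) 3

lemma mem_inf_iff {g : SL(2, ℤ)} :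
    g ∈ Subgroup.zpowers S ⊓ Subgroup.zpowers U ↔ g = 1 ∨ g = -1 := by
  constructor
  · rintro ⟨hA, hB⟩
    rcases mem_zpowers_S hA with rfl | rfl | rfl | rfl
    · exact Or.inl rfl
    · exfalso
      rcases mem_zpowers_U hB with h | h | h | h | h | h <;>
      · have := congrArg ent h
        simp [ent_neg, ent_one, ent_S, ent_U, ent_U_sq] at this
    · exact Or.inr rfl
    · exfalso
      rcases mem_zpowers_U hB with h | h | h | h | h | h <;>
      · have := congrArg ent h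
        simp [ent_neg, ent_one, ent_S, ent_U, ent_U_sq] at this
  · rintro (rfl | rfl)
    · exact one_mem _
    · exact ⟨neg_one_mem_zpowers_S, neg_one_mem_zpowers_U⟩

lemma orderOf_S : orderOf S = 4 := by
  have h := orderOf_eq_prime_pow (x := S) (p := 2) (n := 1)
    (by rw [pow_one, S_sq]; exact neg_one_ne_one) (by norm_num [S_pow_four])
  simpa using h

lemma U_sq_ne_one : U ^ 2 ≠ 1 := by
  intro h
  have := congrArg ent h
  rw [ent_U_sq, ent_one] at this
  simp at this

lemma orderOf_U : orderOf U = 6 := by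
  refine orderOf_eq_of_pow_and_pow_div_prime (by norm_num) U_pow_six ?_
  intro p hp hd
  have hp6 : p ∣ 2 * 3 := by simpa using hd
  rcases (Nat.Prime.dvd_mul hp).mp hp6 with h | h
  · have : p = 2 := (Nat.prime_dvd_prime_iff_eq hp Nat.prime_two).mp h
    subst this
    norm_num
    rw [U_cube]; exact neg_one_ne_one
  · have : p = 3 := (Nat.prime_dvd_prime_iff_eq hp Nat.prime_three).mp h
    subst this
    norm_num
    exact U_sq_ne_one

end Fermat.Agent.S41.Pres37
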